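import Mathlib
import Fermat.Agent.LT.T7.H193.ProjSpec
import Fermat.Agent.LT.T2.H566.CuspSub
import Fermat.Agent.LT.T2.H429.Loc
import Fermat.Agent.LT.T5.H599.Ray

/-!
# Row LT, tower T7, sub-station PROJ (helper193), leaf PROJ.3 = FIN-AVG-CUSP (helper547)

OFF-MAIN.  `finAvgCuspC547 K : H193.FinAvgCuspC K` VERBATIM (Prop of `T7/H193/ProjSpec.lean`).

The finite average `P_f ψ = |Rep|⁻¹ ∑_{h ∈ Rep} ψ(· h)` of a cusp function of level `𝔑` is a cusp
function of level `𝔑₀`, Iwahori-invariant along the orbit.  Assets used (byte-identical copies):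
`T2/H566/CuspSub.lean` (integrability of the constant-term integrand), `T2/H429/Loc.lean`
(elements with disjoint supports commute), `T5/H599/Ray.lean` (the ray generator is central).
-/

set_option autoImplicit false
set_option linter.unusedSectionVars false
set_option linter.style.haveILetI false

open IsDedekindDomain NumberField MeasureTheory

noncomputable section

namespace Fermat.Agent.LT.T7.H547

open Fermat.Agent.LT.H556 Fermat.Agent.LT.H556.A0 Fermat.Agent.LT
open Fermat.Agent.LT.T7.H193 Fermat.Agent.LT.H129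

variable {K : Type} [Field K] [NumberField K]

/-- The members of `Rep` are trivial at every infinite place. -/
theorem rep_trivAtInf547 {𝔑 𝔑₀ : Ideal (𝓞 K)} {l : ℕ} {o : ℕ → HeightOneSpectrum (𝓞 K)}
    {Rep : Finset (G K)} (hRep : IsFinData 𝔑 𝔑₀ l o Rep) {h : G K} (hh : h ∈ Rep)
    (w : InfinitePlace K) : infCompHom129 w h = 1 := by
  obtain ⟨i, u, hi, hu, rfl⟩ := hRep.mem h hh
  rw [map_mul, (trivAtInf_iff129 w i).1 (hi.1 w), (trivAtInf_iff129 w u).1 (hu.1 w), one_mul]

/-- The members of `Rep` commute with the elements supported at an infinite place. -/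
theorem rep_commute_inf547 {𝔑 𝔑₀ : Ideal (𝓞 K)} {l : ℕ} {o : ℕ → HeightOneSpectrum (𝓞 K)}
    {Rep : Finset (G K)} (hRep : IsFinData 𝔑 𝔑₀ l o Rep) {h : G K} (hh : h ∈ Rep)
    {w : InfinitePlace K} {k : G K} (hk : IsLocalAtInf w k) : k * h = h * k := by
  rw [T2.H429.isLocalAtInf_iff429] at hk
  exact T2.H429.commute_of_disjoint429 (fun w' => Or.inr (rep_trivAtInf547 hRep hh w'))
    (fun v => Or.inl (hk.2 v))

theorem finAvg_apply547 (Rep : Finset (G K)) (ψ : G K → ℂ) (g : G K) :
    finAvg Rep ψ g = ((Rep.card : ℂ))⁻¹ * ∑ h ∈ Rep, ψ (g * h) := rfl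

/-- Continuity of the finite average. -/
theorem continuous_finAvg547 (Rep : Finset (G K)) {ψ : G K → ℂ} (hψ : Continuous ψ) :
    Continuous (finAvg Rep ψ) := by
  unfold finAvg
  refine continuous_const.mul (continuous_finset_sum _ fun h _ => ?_)
  exact hψ.comp (continuous_id.mul continuous_const)

/-- The finite average is bounded. -/
theorem bdd_finAvg547 (Rep : Finset (G K)) {ψ : G K → ℂ} (hψ : ∃ C : ℝ, ∀ g : G K, ‖ψ g‖ ≤ C) :
    ∃ C : ℝ, ∀ g : G K, ‖finAvg Rep ψ g‖ ≤ C := by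
  obtain ⟨C, hC⟩ := hψ
  refine ⟨‖((Rep.card : ℂ))⁻¹‖ * ∑ _h ∈ Rep, C, fun g => ?_⟩
  rw [finAvg_apply547, norm_mul]
  refine mul_le_mul_of_nonneg_left ?_ (norm_nonneg _)
  exact (norm_sum_le _ _).trans (Finset.sum_le_sum fun h _ => hC _)

/-- The constant term of the finite average vanishes. -/
theorem cuspidal_finAvg547 (hFD : T1.AddFundDomC K) (Rep : Finset (G K)) {ψ : G K → ℂ}
    (hc : Continuous ψ) (hb : ∃ C : ℝ, ∀ g : G K, ‖ψ g‖ ≤ C) (hψ : IsCuspidalFn ψ) :
    IsCuspidalFn (finAvg Rep ψ) := by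
  letI : MeasurableSpace (Adl K) := borel (Adl K)
  intro μ hμ D hD n hn g
  have e : (fun x => finAvg Rep ψ (n x * g))
      = fun x => ((Rep.card : ℂ))⁻¹ * ∑ h ∈ Rep, ψ (n x * (g * h)) := by
    funext x
    rw [finAvg_apply547]
    simp only [mul_assoc]
  rw [e, integral_const_mul, integral_finset_sum]
  · rw [Finset.sum_eq_zero fun h _ => hψ μ hμ D hD n hn (g * h), mul_zero]
  · intro h _
    exact T2.H566.integrable_unip566 hFD hc hb μ hμ D hD n hn (g * h)

/-- **LEAF PROJ.3 = FIN-AVG-CUSP** (`T7/H193/ProjSpec.lean`), VERBATIM. -/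
theorem finAvgCuspC547 (K : Type) [Field K] [NumberField K] : FinAvgCuspC K := by
  intro hT1 𝔑 𝔑₀ l o Rep hRep r hr ψ hψ
  refine ⟨⟨continuous_finAvg547 Rep hψ.cont, bdd_finAvg547 Rep hψ.bdd, ⟨?_, ?_, ?_, ?_⟩,
    cuspidal_finAvg547 hT1.addFundDom Rep hψ.cont hψ.bdd hψ.cuspidal⟩, ?_⟩
  · -- left invariance under `GL₂(K)`
    intro γ g
    rw [finAvg_apply547, finAvg_apply547]
    congr 1
    refine Finset.sum_congr rfl fun h _ => ?_
    rw [mul_assoc]
    exact hψ.aut.left_inv γ (g * h)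
  · -- right invariance under `U(𝔑₀)`
    intro u hu g
    rw [finAvg_apply547, finAvg_apply547]
    congr 1
    exact hRep.perm_level ψ hψ.aut.level_inv u hu g
  · -- trivial `K_∞`-type
    intro w k hk g
    rw [finAvg_apply547, finAvg_apply547]
    have htriv : T5.trivType k = 1 := rfl
    rw [htriv, one_mul]
    congr 1
    refine Finset.sum_congr rfl fun h hh => ?_
    rw [mul_assoc, rep_commute_inf547 hRep hh hk.1, ← mul_assoc]
    have := hψ.aut.arch_compact w k hk (g * h)
    rw [this, htriv, one_mul]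
  · -- the ray
    intro g
    rw [finAvg_apply547, finAvg_apply547]
    congr 1
    refine Finset.sum_congr rfl fun h _ => ?_
    rw [mul_assoc, T5.H599.ray_commute599 hr h, ← mul_assoc]
    exact hψ.aut.ray (g * h)
  · -- Iwahori invariance along the orbit
    rw [isIwInv_iff]
    intro h₀ hh₀ x
    rw [finAvg_apply547, finAvg_apply547]
    congr 1
    exact hRep.perm_iw ψ hψ.aut.level_inv h₀ hh₀ x

end Fermat.Agent.LT.T7.H547

end
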