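import Mathlib
import Fermat.Agent.LT.T7.H309.Dn2Spec

/-!
# Row LT, tower T7, leaf T7.L2.1.H2a.4.5.E `Dn2SuppC309` (helper547, registry row 3033)

OFF-MAIN.  `dn2SuppC547 K K' : H309.Dn2.Dn2SuppC309 K K'` VERBATIM against the byte-identical
copy of `LT/T7/H309/Dn2Spec.lean` (helper309, sha256 2e8b57c8).

`f₂ = c · nat193 a D W`, `W = wsum970 s β (F₁ [])`.

* `W y = ∫ pure305 (T ω) (repDn970 B T₀ b (f₀ ω)) (F ω) y dν` (shape of the first pair, sum and
  integral exchanged, `IsWtDown970.rep`);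
* `W y ≠ 0` ⟹ a member does not vanish at `y` ⟹ its component `1_{I_u}` at `u ∈ T₀ ⊆ T ω`
  does not vanish ⟹ `InIwahori u y`;
* `f₂ y ≠ 0` ⟹ `W (y a(t)⁻¹) ≠ 0` for some `t ∈ D`; `a t` is trivial at the finite places;
* the support: `W` is supported in `⋃_{x ∈ s} x C₁`, `f₂` in the compact set
  `(⋃_{x ∈ s} x C₁) · a(closure D)`.

ADDITIVE (new names only, suffix `547`).  Nothing assumed.
-/

set_option autoImplicit false

open AutomorphicForm IsDedekindDomain NumberField MeasureTheory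
open scoped ComplexConjugate

noncomputable section

namespace Fermat.Agent.LT.T7.H547

open Fermat.Agent.LT.H556 Fermat.Agent.LT.H556.A0 Fermat.Agent.LT.T7
open Fermat.Agent.LT.T7.H305 Fermat.Agent.LT.T7.H893 Fermat.Agent.LT.T7.B981
open Fermat.Agent.LT.T7.B970 Fermat.Agent.LT.T7.H309.Dn2

attribute [local instance] Fermat.Agent.LT.T5.instMeasurableSpaceG

section OneField

variable {K : Type} [Field K] [NumberField K]

/-- The local Iwahori condition on the component gives the global one. -/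
theorem inIwahori_of_inIw547 (u : HeightOneSpectrum (𝓞 K)) (y : G K)
    (h : InIw893 (finGL305 u y)) : T5.InIwahori u y := by
  obtain ⟨h1, h2, h3⟩ := h
  refine ⟨fun i j => ?_, fun i j => ?_, h3⟩
  · exact (HeightOneSpectrum.mem_adicCompletionIntegers _ _ _).2 (h1 i j)
  · have h4 := h2 i j
    rw [← map_inv] at h4
    exact (HeightOneSpectrum.mem_adicCompletionIntegers _ _ _).2 h4

/-- A pure tensor which does not vanish at `h` has non-vanishing components on `T`. -/
theorem comp_ne_zero_of_pure547 {T : Finset (HeightOneSpectrum (𝓞 K))}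
    {f₀ : ∀ v : HeightOneSpectrum (𝓞 K), GL (Fin 2) (v.adicCompletion K) → ℂ}
    {F : InfinitePlace K → GL (Fin 2) ℂ → ℂ} {h : G K} (hne : pure305 T f₀ F h ≠ 0)
    {u : HeightOneSpectrum (𝓞 K)} (hu : u ∈ T) : f₀ u (finGL305 u h) ≠ 0 := by
  intro h0
  apply hne
  unfold pure305
  split_ifs
  · rw [Finset.prod_eq_zero hu h0, zero_mul]
  · rfl

/-- The Iwahori function does not vanish on the Iwahori subgroup only. -/
theorem inIw_of_iwFn_ne_zero547 {k : Type} [Field k] [Valued k (WithZero (Multiplicative ℤ))]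
    {x : GL (Fin 2) k} (h : iwFn893 x ≠ 0) : InIw893 x := by
  by_contra hx
  apply h
  unfold iwFn893
  rw [if_neg hx]

/-- The component at a finite place of a right translate by an element which is trivial at the
finite place. -/
theorem finGL_mul_inv_triv547 (u : HeightOneSpectrum (𝓞 K)) (y z : G K)
    (hz : TrivAtFin u z) : finGL305 u (y * z⁻¹) = finGL305 u y := by
  have h1 : finGL305 u z = 1 := Units.ext hz
  rw [map_mul, map_inv, h1, inv_one, mul_one]

end OneField

section Main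

variable (K K' : Type) [Field K] [NumberField K] [Field K'] [NumberField K'] [Algebra K K']

/-- **T7.L2.1.H2a.4.5.E `Dn2SuppC309`, PROVED** (registry row 3033). -/
theorem dn2SuppC547 : Dn2SuppC309 K K' := by
  intro ℓ Φ B 𝔫 μc T₀ n n₀ m a D a' D' s β b c₁ Φ₁ F₁ hyp c
  obtain ⟨Ω, iT, iC, iT2, iSC, iM, iB, ν, iF, T, T', φ₀, Φa, f₀, F, hloc, -, -, -, hcont, -,
    hsupp, -, hf⟩ := hyp.shape
  obtain ⟨C₁, hC₁, hC₁s⟩ := hsupp
  have hu : B.u ∈ T₀ := (hyp.exp.mem B.u).2 hyp.lvl.u_level
  have hdown := hyp.rel.down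
  -- integrability of the members in the parameter
  have hint : ∀ z : G K, Integrable (fun ω : Ω => pure305 (T ω) (f₀ ω) (F ω) z) ν := by
    intro z
    have hc1 : Continuous (fun ω : Ω => (1 : ℂ) * pure305 (T ω) (f₀ ω) (F ω) z) :=
      hcont.comp (continuous_id.prodMk continuous_const)
    have hc2 : Continuous (fun ω : Ω => pure305 (T ω) (f₀ ω) (F ω) z) := by
      simpa only [one_mul] using hc1
    exact hc2.integrable_of_hasCompactSupport (HasCompactSupport.of_compactSpace _)
  -- `W` as an average of pure tensors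
  have hW : ∀ y : G K, wsum970 s β (F₁ []) y
      = ∫ ω, pure305 (T ω) (repDn970 B T₀ b (f₀ ω)) (F ω) y ∂ν := by
    intro y
    have e1 : wsum970 s β (F₁ []) y
        = ∑ x ∈ s, ∫ ω, β x * pure305 (T ω) (f₀ ω) (F ω) (x⁻¹ * y) ∂ν := by
      unfold wsum970
      refine Finset.sum_congr rfl fun x _ => ?_
      rw [hf (x⁻¹ * y), ← integral_const_mul]
      simp only [one_mul]
    rw [e1, ← integral_finsetSum s (fun x _ => (hint (x⁻¹ * y)).const_mul (β x))]
    refine integral_congr_ae (Filter.Eventually.of_forall fun ω => ?_)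
    exact hyp.wt.rep (T ω) (f₀ ω) (F ω) (hloc ω).1 (hloc ω).2.2.1 y
  -- the support of `W` is Iwahori at `u`
  have hWiw : ∀ y : G K, wsum970 s β (F₁ []) y ≠ 0 → InIw893 (finGL305 B.u y) := by
    intro y hy
    rw [hW y] at hy
    have hex : ∃ ω : Ω, pure305 (T ω) (repDn970 B T₀ b (f₀ ω)) (F ω) y ≠ 0 := by
      by_contra hno
      push Not at hno
      apply hy
      simp only [hno, integral_zero]
    obtain ⟨ω, hω⟩ := hex
    have h1 := comp_ne_zero_of_pure547 hω ((hloc ω).1 hu)
    have h2 : repDn970 B T₀ b (f₀ ω) B.u = iwFn893 := by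
      unfold repDn970
      rw [if_pos rfl]
    rw [h2] at h1
    exact inIw_of_iwFn_ne_zero547 h1
  -- the support of `W` is contained in a compact set
  have hWsupp : ∀ y : G K, wsum970 s β (F₁ []) y ≠ 0 →
      y ∈ ⋃ x ∈ s, (fun h : G K => x * h) '' C₁ := by
    intro y hy
    have hex : ∃ x ∈ s, F₁ [] (x⁻¹ * y) ≠ 0 := by
      by_contra hno
      push Not at hno
      apply hy
      unfold wsum970
      refine Finset.sum_eq_zero fun x hx => ?_
      rw [hno x hx, mul_zero]
    obtain ⟨x, hx, hxy⟩ := hex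
    rw [hf (x⁻¹ * y)] at hxy
    have hex2 : ∃ ω : Ω, pure305 (T ω) (f₀ ω) (F ω) (x⁻¹ * y) ≠ 0 := by
      by_contra hno
      push Not at hno
      apply hxy
      simp only [hno, mul_zero, integral_zero]
    obtain ⟨ω, hω⟩ := hex2
    refine Set.mem_biUnion hx ⟨x⁻¹ * y, hC₁s ω _ hω, ?_⟩
    show x * (x⁻¹ * y) = y
    rw [mul_inv_cancel_left]
  have hC₂ : IsCompact (⋃ x ∈ s, (fun h : G K => x * h) '' C₁) :=
    s.isCompact_biUnion fun x _ => hC₁.image (continuous_const.mul continuous_id)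
  have hcl : IsCompact (closure D) := hdown.bdd.isCompact_closure
  have hC₃ : IsCompact ((fun p : G K × (InfinitePlace K → ℝ) => p.1 * a p.2) ''
      ((⋃ x ∈ s, (fun h : G K => x * h) '' C₁) ×ˢ closure D)) :=
    (hC₂.prod hcl).image (continuous_fst.mul (hdown.cont.comp continuous_snd))
  -- the function `f₂`
  have hf₂ : ∀ y : G K, c * H193.nat193 a D (wsum970 s β (F₁ [])) y ≠ 0 →
      ∃ t ∈ D, wsum970 s β (F₁ []) (y * (a t)⁻¹) ≠ 0 := by
    intro y hy
    by_contra hno
    push Not at hno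
    apply hy
    unfold H193.nat193
    rw [setIntegral_congr_fun hdown.meas (g := fun _ => (0 : ℂ)) (fun t ht => hno t ht)]
    simp
  refine ⟨_, hC₃, fun y hy => ?_⟩
  obtain ⟨t, ht, hyt⟩ := hf₂ y hy
  refine ⟨fun j _ => ?_, y, ?_, T5.H942.agreeOutside_refl942 _ y⟩
  · have h1 := hWiw _ hyt
    rw [finGL_mul_inv_triv547 B.u y (a t) (hdown.fin t B.u)] at h1
    exact inIwahori_of_inIw547 B.u y h1
  · refine ⟨(y * (a t)⁻¹, t), ⟨hWsupp _ hyt, subset_closure ht⟩, ?_⟩
    show y * (a t)⁻¹ * a t = y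
    rw [inv_mul_cancel_right]

end Main

end Fermat.Agent.LT.T7.H547

end
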